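import Fermat.Agent.S14.Genus.CyclicIndex
import Mathlib.NumberTheory.NumberField.Units.DirichletTheorem
import Mathlib.NumberTheory.NumberField.InfinitePlace.TotallyRealComplex
import Mathlib.RingTheory.Norm.Transitivity
import Mathlib.RingTheory.IntegralClosure.IntegralRestrict
import Mathlib.FieldTheory.Galois.IsGaloisGroup

/-!
# The Herbrand quotient of units in a cyclic extension of prime degree, totally complex case
-/

set_option autoImplicit false

open scoped NumberField
open Module

namespace Fermat.Agent.S14.Genus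

variable (p : ℕ) [hp : Fact p.Prime] (K L : Type*) [Field K] [NumberField K] [Field L]
  [NumberField L] [Algebra K L] [IsGalois K L]

/-- The norm on units. -/
noncomputable def normUnits : (𝓞 L)ˣ →* (𝓞 K)ˣ := Units.map (Algebra.intNorm (𝓞 K) (𝓞 L))

/-- `v ↦ (g v) / v` on units. -/
noncomputable def unitsTwist (g : Gal(L/K)) : (𝓞 L)ˣ →* (𝓞 L)ˣ :=
  Units.map (MulSemiringAction.toRingHom _ (𝓞 L) g : 𝓞 L →* 𝓞 L) / MonoidHom.id _

variable {p K L}

omit [NumberField K] [NumberField L] [IsGalois K L] in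
lemma coe_unitsTwist_mul (g : Gal(L/K)) (v : (𝓞 L)ˣ) :
    ((unitsTwist K L g v * v : (𝓞 L)ˣ) : 𝓞 L) = g • (v : 𝓞 L) := by
  simp [unitsTwist]

lemma zpowers_eq_top (hdeg : finrank K L = p) {g : Gal(L/K)} (hg : g ≠ 1) (x : Gal(L/K)) :
    x ∈ Subgroup.zpowers g := by
  have hc : Nat.card Gal(L/K) = p := (IsGalois.card_aut_eq_finrank K L).trans hdeg
  rw [zpowers_eq_top_of_prime_card hc hg]
  trivial

omit hp in
lemma pow_prime_eq_one (hdeg : finrank K L = p) (g : Gal(L/K)) : g ^ p = 1 := by
  rw [← hdeg, ← IsGalois.card_aut_eq_finrank K L]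
  exact pow_card_eq_one'

lemma algebraMap_intNorm_eq_prod (hdeg : finrank K L = p) {g : Gal(L/K)} (hg : g ≠ 1) (x : 𝓞 L) :
    algebraMap (𝓞 K) (𝓞 L) (Algebra.intNorm (𝓞 K) (𝓞 L) x) =
      ∏ i ∈ Finset.range p, g ^ i • x := by
  apply NumberField.RingOfIntegers.coe_injective
  have hord : orderOf g = p :=
    orderOf_eq_prime (pow_prime_eq_one hdeg g) hg
  have hbij : Function.Bijective fun i : Fin p => g ^ (i : ℕ) := by
    rw [Fintype.bijective_iff_injective_and_card]
    refine ⟨fun i j h => Fin.ext (pow_injOn_Iio_orderOf (by simp [hord]) (by simp [hord]) h), ?_⟩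
    rw [Fintype.card_fin, ← Nat.card_eq_fintype_card, IsGalois.card_aut_eq_finrank K L, hdeg]
  show algebraMap (𝓞 L) L _ = algebraMap (𝓞 L) L _
  rw [← IsScalarTower.algebraMap_apply, IsScalarTower.algebraMap_apply (𝓞 K) K L,
    Algebra.algebraMap_intNorm (A := 𝓞 K) (K := K) (L := L) (B := 𝓞 L),
    Algebra.norm_eq_prod_automorphisms, map_prod,
    ← Fin.prod_univ_eq_prod_range (fun i => algebraMap (𝓞 L) L (g ^ i • x)) p]
  refine (Fintype.prod_bijective _ hbij _ _ fun i => ?_).symm
  rfl

/-- Herbrand quotient `1 / p` of the units. -/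
theorem units_index [NumberField.IsTotallyComplex K] (hdeg : finrank K L = p) {g : Gal(L/K)}
    (hg : g ≠ 1) :
    (unitsTwist K L g).range.relIndex (normUnits K L).ker = p * (normUnits K L).range.index ∧
      (normUnits K L).range.index ≠ 0 := by
  have : NumberField.IsTotallyComplex L := NumberField.isTotallyComplex_of_algebra K L
  let s : AddMonoid.End (Additive (𝓞 L)ˣ) :=
    MonoidHom.toAdditive (Units.map (MulSemiringAction.toRingHom _ (𝓞 L) g : 𝓞 L →* 𝓞 L))
  have hs_pow : ∀ i u, ((Additive.toMul ((s ^ i) u) : (𝓞 L)ˣ) : 𝓞 L) =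
      g ^ i • ((Additive.toMul u : (𝓞 L)ˣ) : 𝓞 L) := by
    intro i
    induction i with
    | zero => intro u; rw [pow_zero, pow_zero, one_smul]; rfl
    | succ i ih => intro u; rw [pow_succ, pow_succ, mul_smul]; exact ih (s u)
  have hs : s ^ p = 1 := AddMonoidHom.ext fun u => Units.ext ((hs_pow p u).trans (by
    rw [pow_prime_eq_one hdeg, one_smul]; rfl))
  set G : AddMonoid.End (Additive (𝓞 L)ˣ) := ∑ i ∈ Finset.range p, s ^ i
  have hG : ∀ u, ((Additive.toMul (G u) : (𝓞 L)ˣ) : 𝓞 L) =
      algebraMap (𝓞 K) (𝓞 L) (normUnits K L (Additive.toMul u) : (𝓞 K)ˣ) := by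
    intro u
    rw [show (G u) = ∑ i ∈ Finset.range p, (s ^ i) u from AddMonoidHom.finsetSum_apply _ _ _,
      toMul_sum, Units.coe_prod, Finset.prod_congr rfl fun i _ => hs_pow i u,
      ← algebraMap_intNorm_eq_prod hdeg hg]
    rfl
  have hinj : Function.Injective (algebraMap (𝓞 K) (𝓞 L)) :=
    FaithfulSMul.algebraMap_injective _ _
  let ι : (𝓞 K)ˣ →* (𝓞 L)ˣ := Units.map (algebraMap (𝓞 K) (𝓞 L) : 𝓞 K →* 𝓞 L)
  have hιinj : Function.Injective ι := Units.map_injective hinj
  have hιG : ∀ u, Additive.toMul (G u) = ι (normUnits K L (Additive.toMul u)) := fun u =>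
    Units.ext (hG u)
  have hkerf : (s - 1).ker = ι.range.toAddSubgroup := by
    ext u
    constructor
    · intro hu
      have hu' : g • ((Additive.toMul u : (𝓞 L)ˣ) : 𝓞 L) = ((Additive.toMul u : (𝓞 L)ˣ) : 𝓞 L) :=
        congrArg (fun z => ((Additive.toMul z : (𝓞 L)ˣ) : 𝓞 L)) (sub_eq_zero.1 hu)
      have hfix : ∀ x : (𝓞 L)ˣ, g • (x : 𝓞 L) = x → ∀ h : Gal(L/K), h • (x : 𝓞 L) = x := by
        intro x hx h
        exact MulAction.mem_stabilizer_iff.1
          ((Subgroup.zpowers_le.2 (MulAction.mem_stabilizer_iff.2 hx)) (zpowers_eq_top hdeg hg h))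
      obtain ⟨a, ha⟩ := Algebra.IsInvariant.isInvariant (A := 𝓞 K) (G := Gal(L/K)) _
        (hfix _ hu')
      have hinv : g • (((Additive.toMul u)⁻¹ : (𝓞 L)ˣ) : 𝓞 L) =
          (((Additive.toMul u)⁻¹ : (𝓞 L)ˣ) : 𝓞 L) := by
        apply (Additive.toMul u).isUnit.mul_left_cancel
        conv_lhs => rw [← hu', ← smul_mul', Units.mul_inv, smul_one]
        rw [Units.mul_inv]
      obtain ⟨b, hb⟩ := Algebra.IsInvariant.isInvariant (A := 𝓞 K) (G := Gal(L/K)) _
        (hfix _ hinv)
      have hab : a * b = 1 := hinj (by rw [map_mul, ha, hb, map_one, Units.mul_inv])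
      exact ⟨⟨a, b, hab, by rw [mul_comm]; exact hab⟩, Units.ext ha⟩
    · rintro ⟨a, ha⟩
      refine sub_eq_zero.2 (Units.ext ?_)
      show g • ((Additive.toMul u : (𝓞 L)ˣ) : 𝓞 L) = ((Additive.toMul u : (𝓞 L)ˣ) : 𝓞 L)
      rw [show Additive.toMul u = ι a from ha.symm]
      exact smul_algebraMap g (a : 𝓞 K)
  have hkerG : G.ker = (normUnits K L).ker.toAddSubgroup := by
    ext u
    constructor
    · intro hu
      refine hιinj ?_
      rw [← hιG, show G u = 0 from hu, map_one]; rfl
    · intro hu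
      show G u = 0
      apply Additive.toMul.injective
      rw [hιG, show normUnits K L (Additive.toMul u) = 1 from hu, map_one]; rfl
  have hrangeG : G.range = ((normUnits K L).range.map ι).toAddSubgroup := by
    ext u
    constructor
    · rintro ⟨v, rfl⟩
      exact ⟨_, ⟨_, rfl⟩, (hιG v).symm⟩
    · rintro ⟨_, ⟨v, rfl⟩, hv⟩
      exact ⟨Additive.ofMul v, Additive.toMul.injective ((hιG _).trans hv)⟩
  have hrangef : (s - 1).range = (unitsTwist K L g).range.toAddSubgroup := by
    ext u
    constructor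
    · rintro ⟨v, rfl⟩
      exact ⟨Additive.toMul v, rfl⟩
    · rintro ⟨v, hv⟩
      exact ⟨Additive.ofMul v, hv⟩
  -- torsion
  have hroots : Finite {a : Additive (𝓞 L)ˣ // p • a = 0} := by
    refine Finite.of_injective (fun a => (⟨Additive.toMul a.1, ?_⟩ : rootsOfUnity p (𝓞 L)))
      fun a b h => Subtype.ext (congrArg (fun z : rootsOfUnity p (𝓞 L) => z.1) h)
    exact congrArg Additive.toMul a.2
  have : Nonempty {a : Additive (𝓞 L)ˣ // p • a = 0} := ⟨⟨0, smul_zero p⟩⟩
  have hfix : ∀ a : Additive (𝓞 L)ˣ, p • a = 0 → s a = a := by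
    intro a ha
    set x : (𝓞 L)ˣ := Additive.toMul a
    have hx : x ^ p = 1 := congrArg Additive.toMul ha
    by_cases h1 : x = 1
    · have : a = 0 := h1
      rw [this, map_zero]
    have hord : orderOf x = p := orderOf_eq_prime hx h1
    have hxζ : IsPrimitiveRoot (x : 𝓞 L) p :=
      IsPrimitiveRoot.coe_units_iff.2 (hord ▸ IsPrimitiveRoot.orderOf x)
    have : NeZero p := ⟨hp.out.ne_zero⟩
    obtain ⟨k, -, hk⟩ := hxζ.eq_pow_of_pow_eq_one
      (show (g • (x : 𝓞 L)) ^ p = 1 by
        rw [← smul_pow', hxζ.pow_eq_one, smul_one])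
    have hiter : ∀ i : ℕ, g ^ i • (x : 𝓞 L) = (x : 𝓞 L) ^ k ^ i := by
      intro i
      induction i with
      | zero => simp
      | succ i ih =>
        rw [pow_succ, mul_smul, ← hk, smul_pow', ih, ← pow_mul, ← pow_succ]
    have hkk := hiter p
    rw [pow_prime_eq_one hdeg, one_smul] at hkk
    have hmod : k ^ p ≡ 1 [MOD p] := by
      have := (pow_eq_pow_iff_modEq (x := x) (n := 1) (m := k ^ p)).1
        (Units.ext (by simpa using hkk))
      rw [hord] at this
      exact this.symm
    have hk1 : k ≡ 1 [MOD p] := by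
      rw [← ZMod.natCast_eq_natCast_iff] at hmod ⊢
      rw [Nat.cast_pow, ZMod.pow_card] at hmod
      exact hmod
    apply Additive.toMul.injective
    apply Units.ext
    show g • (x : 𝓞 L) = x
    rw [← hk]
    have := (pow_eq_pow_iff_modEq (x := x) (n := k) (m := 1)).2 (by rwa [hord])
    simpa using congrArg Units.val this
  -- ranks
  set m := NumberField.InfinitePlace.nrComplexPlaces K with hm_def
  have hcardK : Fintype.card (NumberField.InfinitePlace K) = m := by
    rw [NumberField.InfinitePlace.card_eq_nrRealPlaces_add_nrComplexPlaces,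
      NumberField.IsTotallyComplex.nrRealPlaces_eq_zero, zero_add]
  have hcardL : Fintype.card (NumberField.InfinitePlace L) = p * m := by
    rw [NumberField.InfinitePlace.card_eq_nrRealPlaces_add_nrComplexPlaces,
      NumberField.IsTotallyComplex.nrRealPlaces_eq_zero, zero_add]
    have e1 := NumberField.IsTotallyComplex.finrank (K := K)
    have e2 := NumberField.IsTotallyComplex.finrank (K := L)
    have e3 := Module.finrank_mul_finrank ℚ K L
    rw [hdeg, e1, e2, ← hm_def, mul_assoc, mul_comm m p] at e3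
    exact (Nat.eq_of_mul_eq_mul_left two_pos e3).symm
  have hA : finrank ℤ (Additive (𝓞 L)ˣ) + 1 = p * m := by
    rw [NumberField.Units.finrank_eq, NumberField.Units.rank, hcardL]
    have := hcardK ▸ (Fintype.card_pos (α := NumberField.InfinitePlace K))
    have : 0 < p * m := Nat.mul_pos hp.out.pos this
    omega
  have h0 : finrank ℤ ↥(s - 1).ker + 1 = m := by
    have e : finrank ℤ ↥(s - 1).ker = finrank ℤ (Additive (𝓞 K)ˣ) := by
      rw [hkerf]
      exact (AddEquiv.toIntLinearEquiv
        ((MonoidHom.toAdditive ι).ofInjective (Additive.ofMul.injective.comp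
          (hιinj.comp Additive.toMul.injective)))).finrank_eq.symm
    rw [e, NumberField.Units.finrank_eq, NumberField.Units.rank, hcardK]
    have := hcardK ▸ (Fintype.card_pos (α := NumberField.InfinitePlace K))
    omega
  obtain ⟨h, hne⟩ := relIndex_ker_eq_mul s hs m rfl Nat.card_pos.ne' hfix hA h0
  rw [hrangef, hkerG, hrangeG, hkerf, Subgroup.relIndex_toAddSubgroup,
    Subgroup.relIndex_toAddSubgroup, MonoidHom.range_eq_map ι,
    Subgroup.relIndex_map_map_of_injective _ _ hιinj, Subgroup.relIndex_top_right] at h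
  rw [hrangeG, hkerf, Subgroup.relIndex_toAddSubgroup, MonoidHom.range_eq_map ι,
    Subgroup.relIndex_map_map_of_injective _ _ hιinj, Subgroup.relIndex_top_right] at hne
  exact ⟨h, hne⟩

end Fermat.Agent.S14.Genus
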