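import Fermat.Agent.CFT.SUnitsModP
import Mathlib.RingTheory.Polynomial.Cyclotomic.Roots
import Mathlib.RingTheory.RootsOfUnity.CyclotomicUnits
import Mathlib.RingTheory.AdjoinRoot
import Mathlib.RingTheory.RootsOfUnity.Lemmas
import Mathlib.GroupTheory.IndexNSmul

/-!
# The Herbrand index of an automorphism of prime order

If `s` is an automorphism of order dividing `p` of a finitely generated abelian group `A`,
`s` trivial on `A[p]`, `rk A + 1 = p m` and `rk A^s + 1 = m`, then
`[ker N : (s - 1) A] = p [A^s : N A]`.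
-/

set_option autoImplicit false

open Module Finset

namespace Fermat.Agent.S14.Genus

variable {A : Type*} [AddCommGroup A]

lemma cidx_card_eq {X Y : Type*} [AddCommGroup X] [AddCommGroup Y] (φ : X →+ Y) :
    Nat.card X = Nat.card φ.ker * Nat.card φ.range := by
  rw [AddSubgroup.card_eq_card_quotient_mul_card_addSubgroup φ.ker,
    Nat.card_congr (QuotientAddGroup.quotientKerEquivRange φ).toEquiv, mul_comm]

/-- Cokernel over kernel is multiplicative under composition. -/
lemma cidx_comp (f g : A →+ A) :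
    (f.comp g).range.index * (Nat.card f.ker * Nat.card g.ker) =
      f.range.index * g.range.index * Nat.card (f.comp g).ker := by
  have h1 : (f.comp g).range.index = (g.range ⊔ f.ker).index * f.range.index := by
    have hle : (f.comp g).range ≤ f.range := by rintro _ ⟨x, rfl⟩; exact ⟨g x, rfl⟩
    rw [← AddSubgroup.relIndex_mul_index hle, AddMonoidHom.range_comp, AddMonoidHom.range_eq_map f,
      AddSubgroup.relIndex_map_map, top_sup_eq, AddSubgroup.relIndex_top_right]
  have h2 : g.range.relIndex f.ker * (g.range ⊔ f.ker).index = g.range.index := by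
    rw [← AddSubgroup.relIndex_mul_index (le_sup_left : g.range ≤ g.range ⊔ f.ker), sup_comm,
      AddSubgroup.relIndex_sup_right]
  have h3 : Nat.card f.ker = g.range.relIndex f.ker * Nat.card ↥(g.range ⊓ f.ker) := by
    rw [← AddSubgroup.card_mul_index (g.range.addSubgroupOf f.ker), mul_comm]
    refine congrArg₂ (· * ·) rfl ?_
    rw [← AddSubgroup.inf_addSubgroupOf_right]
    exact Nat.card_congr (AddSubgroup.addSubgroupOfEquivOfLe inf_le_right).toEquiv
  have h4 : Nat.card (f.comp g).ker = Nat.card g.ker * Nat.card ↥(g.range ⊓ f.ker) := by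
    rw [cidx_card_eq (AddMonoidHom.comp g (f.comp g).ker.subtype)]
    congr 1
    · refine Nat.card_congr ⟨fun x => ⟨x.1.1, x.2⟩, fun x => ⟨⟨x.1, ?_⟩, x.2⟩,
        fun x => rfl, fun x => rfl⟩
      show f (g x.1) = 0
      rw [show g x.1 = 0 from x.2, map_zero]
    · refine Nat.card_congr (Equiv.setCongr ?_)
      ext y
      constructor
      · rintro ⟨x, rfl⟩
        exact ⟨⟨x.1, rfl⟩, x.2⟩
      · rintro ⟨⟨x, rfl⟩, hy⟩
        exact ⟨⟨x, hy⟩, rfl⟩
  rw [h1, h4, h3, ← h2]
  ring

lemma cidx_pow (f : AddMonoid.End A) (hk : Nat.card f.ker ≠ 0) (n : ℕ) :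
    (f ^ n).range.index * Nat.card f.ker ^ n = f.range.index ^ n * Nat.card (f ^ n).ker := by
  induction n with
  | zero =>
    have h1 : (1 : AddMonoid.End A).range = ⊤ := AddMonoidHom.range_eq_top.2 fun x => ⟨x, rfl⟩
    have h2 : (1 : AddMonoid.End A).ker = ⊥ := by ext x; exact Iff.rfl
    simp [h1, h2]
  | succ n ih =>
    have h : (f ^ (n + 1)).range.index * (Nat.card (f ^ n).ker * Nat.card f.ker) =
        (f ^ n).range.index * f.range.index * Nat.card (f ^ (n + 1)).ker := cidx_comp (f ^ n) f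
    have hn : Nat.card (f ^ n).ker ≠ 0 := by
      clear ih h
      induction n with
      | zero =>
        have h2 : (1 : AddMonoid.End A).ker = ⊥ := by ext x; exact Iff.rfl
        simp [h2]
      | succ n ihn =>
        rw [pow_succ']
        have hfin : Finite (f ^ n).ker := Nat.finite_of_card_ne_zero ihn
        have hfin' : Finite f.ker := Nat.finite_of_card_ne_zero hk
        have hsub : Finite (f * f ^ n).ker := by
          have : Finite (AddMonoidHom.comp (f ^ n) (f * f ^ n).ker.subtype).ker :=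
            Finite.of_injective (fun x => (⟨x.1.1, x.2⟩ : (f ^ n).ker))
              fun x y h => Subtype.ext (Subtype.ext (congrArg (fun z => z.1) h))
          have : Finite (AddMonoidHom.comp (f ^ n) (f * f ^ n).ker.subtype).range :=
            Finite.of_injective (fun y => (⟨y.1, by obtain ⟨x, hx⟩ := y.2; rw [← hx]; exact x.2⟩ :
              f.ker)) fun x y h => Subtype.ext (congrArg (fun z => z.1) h)
          apply Nat.finite_of_card_ne_zero
          rw [cidx_card_eq (AddMonoidHom.comp (f ^ n) (f * f ^ n).ker.subtype)]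
          exact mul_ne_zero (Nat.card_pos).ne' (Nat.card_pos).ne'
        exact Nat.card_pos.ne'
    apply Nat.eq_of_mul_eq_mul_right (Nat.pos_of_ne_zero hn)
    calc (f ^ (n + 1)).range.index * Nat.card f.ker ^ (n + 1) * Nat.card (f ^ n).ker
        = (f ^ (n + 1)).range.index * (Nat.card (f ^ n).ker * Nat.card f.ker) *
            Nat.card f.ker ^ n := by ring
      _ = ((f ^ n).range.index * Nat.card f.ker ^ n) *
            (f.range.index * Nat.card (f ^ (n + 1)).ker) := by rw [h]; ring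
      _ = _ := by rw [ih]; ring

/-- In `ℤ[ζ_p]`, `p` is a unit times `(ζ - 1) ^ (p - 1)`; transported to any ring. -/
lemma exists_unit_mul_sub_one_pow {R : Type*} [Ring R] {p : ℕ} [hp : Fact p.Prime] (s : R)
    (hs : ∑ i ∈ range p, s ^ i = 0) :
    ∃ u : R, IsUnit u ∧ (s - 1) ^ (p - 1) * u = (p : R) := by
  let Φ := Polynomial.cyclotomic p ℤ
  let e : AdjoinRoot Φ →+* R := Ideal.Quotient.lift (Ideal.span {Φ})
    (Polynomial.eval₂RingHom' (Int.castRingHom R) s fun a => Int.cast_commute a s) (by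
      intro a ha
      obtain ⟨b, rfl⟩ := Ideal.mem_span_singleton'.1 ha
      rw [map_mul]
      have hΦs : Polynomial.eval₂RingHom' (Int.castRingHom R) s (fun a => Int.cast_commute a s) Φ
          = 0 := by
        simp [Φ, Polynomial.cyclotomic_prime, Polynomial.eval₂RingHom',
          hs]
      rw [hΦs, mul_zero])
  have hΦ : Irreducible Φ := Polynomial.cyclotomic.irreducible hp.out.pos
  have : Fact (Prime Φ) := ⟨hΦ.prime⟩
  have : IsDomain (AdjoinRoot Φ) := AdjoinRoot.isDomain_of_prime hΦ.prime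
  have hdeg : Φ.degree ≠ 0 := by
    rw [Polynomial.degree_cyclotomic]
    exact_mod_cast (Nat.totient_pos.2 hp.out.pos).ne'
  have hinj : Function.Injective (algebraMap ℤ (AdjoinRoot Φ)) :=
    AdjoinRoot.of.injective_of_degree_ne_zero hdeg
  have : NeZero ((p : ℕ) : AdjoinRoot Φ) := ⟨by
    rw [← map_natCast (algebraMap ℤ (AdjoinRoot Φ)), ← map_zero (algebraMap ℤ (AdjoinRoot Φ))]
    exact hinj.ne (by exact_mod_cast hp.out.ne_zero)⟩
  have hζ : IsPrimitiveRoot (AdjoinRoot.root Φ) p := by
    rw [← Polynomial.isRoot_cyclotomic_iff, ← Polynomial.map_cyclotomic_int p (AdjoinRoot Φ),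
      Polynomial.IsRoot.def, Polynomial.eval_map,
      Subsingleton.elim (Int.castRingHom (AdjoinRoot Φ)) (AdjoinRoot.of Φ)]
    exact AdjoinRoot.eval₂_root Φ
  have hprod : Associated ((AdjoinRoot.root Φ - 1) ^ (p - 1))
      (∏ k ∈ range (p - 1), (1 - AdjoinRoot.root Φ ^ (k + 1))) := by
    rw [show ((AdjoinRoot.root Φ - 1) ^ (p - 1)) =
      ∏ _k ∈ range (p - 1), (AdjoinRoot.root Φ - 1) by simp]
    refine Associated.prod _ _ _ fun k hk => ?_
    have hk' : k + 1 < p := by have := Finset.mem_range.1 hk; omega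
    have hcop : (k + 1).Coprime p :=
      (Nat.coprime_of_lt_prime (by omega) hk' hp.out).symm
    have hA := hζ.associated_sub_one_pow_sub_one_of_coprime hcop
    exact hA.trans ⟨-1, by simp⟩
  obtain ⟨n, hn⟩ := Nat.exists_eq_succ_of_ne_zero hp.out.ne_zero
  have hord : (∏ k ∈ range (p - 1), (1 - AdjoinRoot.root Φ ^ (k + 1))) =
      ((p : ℕ) : AdjoinRoot Φ) := by
    subst hn
    simpa using IsPrimitiveRoot.prod_one_sub_pow_eq_order hζ
  obtain ⟨u, hu⟩ := hprod
  refine ⟨e u, u.isUnit.map e, ?_⟩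
  have heroot : e (AdjoinRoot.root Φ) = s := by
    show Polynomial.eval₂ (Int.castRingHom R) s Polynomial.X = s
    simp
  rw [← map_natCast e, ← hord, ← hu, map_mul, map_pow, map_sub, map_one, heroot]

variable {p : ℕ} [hp : Fact p.Prime]

lemma cidx_relIndex_eq (φ : AddMonoid.End A) (S : AddSubgroup A) (φS : AddMonoid.End S)
    (h : ∀ x : S, (φS x : A) = φ x) : (S.map φ).relIndex S = φS.range.index := by
  rw [AddSubgroup.relIndex]
  congr 1
  ext x
  constructor
  · rintro ⟨y, hy, hyx⟩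
    exact ⟨⟨y, hy⟩, Subtype.ext ((h _).trans hyx)⟩
  · rintro ⟨y, rfl⟩
    exact ⟨y.1, y.2, (h y).symm⟩

/-- Restriction of an endomorphism to a stable subgroup. -/
def cidxRestrict (φ : AddMonoid.End A) (S : AddSubgroup A) (h : ∀ x ∈ S, φ x ∈ S) :
    AddMonoid.End S :=
  AddMonoidHom.mk' (fun x => ⟨φ x, h x x.2⟩) fun x y => Subtype.ext (map_add φ x.1 y.1)

theorem relIndex_ker_eq_mul [Module.Finite ℤ A] (s : AddMonoid.End A) (hs : s ^ p = 1) (m : ℕ)
    {t : ℕ} (htor : Nat.card {a : A // p • a = 0} = t) (ht : t ≠ 0) (hfix : ∀ a, p • a = 0 → s a = a)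
    (hA : finrank ℤ A + 1 = p * m) (h0 : finrank ℤ ↥(s - 1).ker + 1 = m) :
    (s - 1).range.relIndex (∑ i ∈ range p, s ^ i).ker =
        p * (∑ i ∈ range p, s ^ i).range.relIndex (s - 1).ker ∧
      (∑ i ∈ range p, s ^ i).range.relIndex (s - 1).ker ≠ 0 := by
  set f := s - 1
  set g := ∑ i ∈ range p, s ^ i with hg_def
  have hp0 : p ≠ 0 := hp.out.ne_zero
  have hfg : f * g = 0 := by rw [mul_geom_sum, hs, sub_self]
  have hgf : g * f = 0 := by rw [geom_sum_mul, hs, sub_self]
  have hfg' : ∀ a, f (g a) = 0 := fun a => DFunLike.congr_fun hfg a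
  have hgf' : ∀ a, g (f a) = 0 := fun a => DFunLike.congr_fun hgf a
  have hg0 : ∀ a ∈ f.ker, g a = p • a := by
    intro a ha
    have hsa : s a = a := sub_eq_zero.1 ha
    have hi : ∀ i, (s ^ i) a = a := by
      intro i
      induction i with
      | zero => rfl
      | succ i ih => rw [pow_succ]; show (s ^ i) (s a) = a; rw [hsa, ih]
    rw [hg_def, show (∑ i ∈ range p, s ^ i) a = ∑ i ∈ range p, (s ^ i) a from
      AddMonoidHom.finsetSum_apply _ _ _, Finset.sum_congr rfl fun i _ => hi i,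
      Finset.sum_const, Finset.card_range]
  -- torsion
  have hfin : Finite {a : A // p • a = 0} := Nat.finite_of_card_ne_zero (by rw [htor]; exact ht)
  have htorS : ∀ S : AddSubgroup A, (∀ a, p • a = 0 → a ∈ S) →
      Nat.card {a : S // p • a = 0} = t := fun S hS => by
    refine (Nat.card_congr ⟨fun a => ⟨a.1.1, congrArg Subtype.val a.2⟩,
      fun a => ⟨⟨a.1, hS a a.2⟩, Subtype.ext a.2⟩, fun a => rfl, fun a => rfl⟩).trans htor
  have hK0 : ∀ a, p • a = 0 → a ∈ f.ker := fun a ha => sub_eq_zero.2 (hfix a ha)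
  have hK1 : ∀ a, p • a = 0 → a ∈ g.ker := fun a ha =>
    (hg0 a (hK0 a ha)).trans ha
  have : Module.Finite ℤ f.ker := Module.Finite.equiv (AddEquiv.refl _).toIntLinearEquiv
    (M := f.ker.toIntSubmodule)
  have : Module.Finite ℤ g.ker := Module.Finite.equiv (AddEquiv.refl _).toIntLinearEquiv
    (M := g.ker.toIntSubmodule)
  -- ranks
  have hrank : finrank ℤ f.ker + finrank ℤ g.ker = finrank ℤ A := by
    let G : A →ₗ[ℤ] A := g.toIntLinearMap
    have e1 := Submodule.finrank_quotient_add_finrank (LinearMap.ker G)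
    rw [G.quotKerEquivRange.finrank_eq] at e1
    let H : f.ker →ₗ[ℤ] A := (g.comp f.ker.subtype).toIntLinearMap
    have e2 := Submodule.finrank_quotient_add_finrank (LinearMap.ker H)
    rw [H.quotKerEquivRange.finrank_eq] at e2
    have e3 : finrank ℤ (LinearMap.ker H) = 0 := by
      rw [Module.finrank_eq_zero_iff]
      intro x
      refine ⟨(p : ℤ), by exact_mod_cast hp0, ?_⟩
      have hx : g x.1.1 = 0 := x.2
      rw [hg0 _ x.1.2] at hx
      exact Subtype.ext (Subtype.ext (by simpa using hx))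
    have le1 : finrank ℤ (LinearMap.range H) ≤ finrank ℤ (LinearMap.range G) :=
      Submodule.finrank_mono (by rintro _ ⟨x, rfl⟩; exact ⟨x.1, rfl⟩)
    have le2 : finrank ℤ (LinearMap.range G) ≤ finrank ℤ f.ker.toIntSubmodule :=
      Submodule.finrank_mono (by rintro _ ⟨x, rfl⟩; exact hfg' x)
    have e4 : finrank ℤ f.ker.toIntSubmodule = finrank ℤ f.ker :=
      (AddEquiv.refl _).toIntLinearEquiv.finrank_eq
    have e5 : finrank ℤ g.ker = finrank ℤ (LinearMap.ker G) :=
      (AddEquiv.refl _).toIntLinearEquiv.finrank_eq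
    omega
  -- fixed part
  have hX0 : (f.ker.map g).relIndex f.ker = p ^ (m - 1) * t := by
    rw [cidx_relIndex_eq g f.ker (nsmulAddMonoidHom p : f.ker →+ f.ker)
      (fun x => (hg0 x.1 x.2).symm),
      Fermat.Agent.CFT.supm_index_nsmul f.ker p hp0, htorS f.ker hK0, show finrank ℤ f.ker = m - 1 by omega]
  -- norm kernel
  have hstab : ∀ x ∈ g.ker, f x ∈ g.ker := fun x _ => hgf' x
  have hsstab : ∀ x ∈ g.ker, s x ∈ g.ker := fun x hx => by
    have : g (f x) = 0 := hgf' x
    change g (s x - x) = 0 at this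
    rw [map_sub, show g x = 0 from hx, sub_zero] at this
    exact this
  let s1 : AddMonoid.End g.ker := cidxRestrict s g.ker hsstab
  have hs1 : ∀ i, ∀ x : g.ker, ((s1 ^ i) x : A) = (s ^ i) x := by
    intro i
    induction i with
    | zero => intro x; rfl
    | succ i ih => intro x; rw [pow_succ, pow_succ]; exact ih (s1 x)
  have hsum : ∑ i ∈ range p, s1 ^ i = 0 := by
    refine AddMonoidHom.ext fun x => Subtype.ext ?_
    have h1 : ((∑ i ∈ range p, s1 ^ i : AddMonoid.End g.ker) x : A) =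
        ∑ i ∈ range p, (((s1 ^ i) x : g.ker) : A) :=
      (congrArg Subtype.val
        (AddMonoidHom.finsetSum_apply (fun i => (s1 ^ i : g.ker →+ g.ker)) (range p) x)).trans
        (map_sum g.ker.subtype _ _)
    refine h1.trans ((Finset.sum_congr rfl fun i _ => hs1 i x).trans ?_)
    exact (AddMonoidHom.finsetSum_apply (fun i => (s ^ i : A →+ A)) (range p) x.1).symm.trans x.2
  let f1 : AddMonoid.End g.ker := s1 - 1
  obtain ⟨u, hu, hpu⟩ := exists_unit_mul_sub_one_pow s1 hsum
  have hu' : Function.Bijective u := by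
    obtain ⟨v, rfl⟩ := hu
    exact Function.bijective_iff_has_inverse.2 ⟨(v⁻¹ : (AddMonoid.End g.ker)ˣ).1,
      fun x => DFunLike.congr_fun v.inv_mul x, fun x => DFunLike.congr_fun v.mul_inv x⟩
  have hnsmul : ((p : AddMonoid.End g.ker)) = nsmulAddMonoidHom p :=
    AddMonoidHom.ext fun x => AddMonoid.End.natCast_apply p x
  have hrange : (f1 ^ (p - 1)).range.index = p ^ finrank ℤ g.ker * t := by
    rw [show (f1 ^ (p - 1)).range = (nsmulAddMonoidHom p : g.ker →+ g.ker).range by
      rw [← hnsmul, ← hpu]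
      ext x
      constructor
      · rintro ⟨y, rfl⟩
        obtain ⟨z, rfl⟩ := hu'.2 y
        exact ⟨z, rfl⟩
      · rintro ⟨y, rfl⟩
        exact ⟨u y, rfl⟩]
    rw [Fermat.Agent.CFT.supm_index_nsmul g.ker p hp0, htorS g.ker hK1]
  have hker1 : Nat.card f1.ker = t := by
    refine (Nat.card_congr (Equiv.ofBijective
      (fun a : {a : A // p • a = 0} => (⟨⟨a.1, hK1 a a.2⟩,
        Subtype.ext (sub_eq_zero.2 (hfix a a.2))⟩ : f1.ker)) ⟨?_, ?_⟩)).symm.trans htor
    · intro a b h
      exact Subtype.ext (congrArg (fun z : f1.ker => z.1.1) h)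
    · intro x
      have hx : x.1.1 ∈ f.ker := congrArg Subtype.val (show f1 x.1 = 0 from x.2)
      refine ⟨⟨x.1.1, ?_⟩, rfl⟩
      rw [← hg0 _ hx]
      exact x.1.2
  have hkerp : Nat.card (f1 ^ (p - 1)).ker = t := by
    have hval : ∀ y, (f1 ^ (p - 1)) (u y) = p • y := fun y => by
      rw [← AddMonoid.End.natCast_apply p y, ← hpu]; rfl
    refine (Nat.card_congr (Equiv.ofBijective
      (fun y : {a : g.ker // p • a = 0} => (⟨u y.1, (hval y.1).trans y.2⟩ :
        (f1 ^ (p - 1)).ker)) ⟨?_, ?_⟩)).symm.trans (htorS g.ker hK1)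
    · intro y z h
      exact Subtype.ext (hu'.1 (congrArg Subtype.val h))
    · intro x
      obtain ⟨y, hy⟩ := hu'.2 x.1
      have hy0 : p • y = 0 := by rw [← hval, hy]; exact x.2
      exact ⟨⟨y, hy0⟩, Subtype.ext hy⟩
  have hpow := cidx_pow f1 (by rw [hker1]; exact ht) (p - 1)
  rw [hrange, hker1, hkerp] at hpow
  have hb : finrank ℤ g.ker = (p - 1) * m := by
    rw [tsub_mul, one_mul]; omega
  have hX1 : (g.ker.map f).relIndex g.ker = p ^ m * t := by
    rw [cidx_relIndex_eq f g.ker f1 (fun x => rfl)]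
    apply Nat.pow_left_injective (show p - 1 ≠ 0 by have := hp.out.two_le; omega)
    apply Nat.eq_of_mul_eq_mul_right (Nat.pos_of_ne_zero ht)
    show f1.range.index ^ (p - 1) * t = (p ^ m * t) ^ (p - 1) * t
    rw [← hpow, hb, mul_pow, ← pow_mul, mul_comm m (p - 1)]
    ring
  -- compare
  set c := (f.ker ⊔ g.ker).index with hc
  have key : ∀ φ ψ : A →+ A, φ.range ≤ ψ.ker → (φ.ker ⊔ ψ.ker).index *
      φ.range.relIndex ψ.ker = (ψ.ker.map φ).relIndex ψ.ker := by
    intro φ ψ hle
    have hle' : ψ.ker.map φ ≤ φ.range := AddSubgroup.map_le_range _ _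
    rw [← AddSubgroup.relIndex_mul_relIndex _ _ _ hle' hle, AddMonoidHom.range_eq_map φ,
      AddSubgroup.relIndex_map_map, top_sup_eq, AddSubgroup.relIndex_top_right, sup_comm]
  have k0 : (g.ker ⊔ f.ker).index * g.range.relIndex f.ker = p ^ (m - 1) * t := by
    rw [← hX0]; exact key g f (by rintro _ ⟨x, rfl⟩; exact hfg' x)
  have k1 : (f.ker ⊔ g.ker).index * f.range.relIndex g.ker = p ^ m * t := by
    rw [← hX1]; exact key f g (by rintro _ ⟨x, rfl⟩; exact hgf' x)
  rw [sup_comm] at k0
  have hne : (f.ker ⊔ g.ker).index * g.range.relIndex f.ker ≠ 0 := by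
    rw [k0]; exact mul_ne_zero (pow_ne_zero _ hp0) ht
  refine ⟨?_, (mul_ne_zero_iff.1 hne).2⟩
  apply Nat.eq_of_mul_eq_mul_left (Nat.pos_of_ne_zero (mul_ne_zero_iff.1 hne).1)
  rw [k1, mul_left_comm, k0, ← mul_assoc, ← pow_succ', show m - 1 + 1 = m by omega]

end Fermat.Agent.S14.Genus
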